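/-
The residual representation of an eigenform congruent to a curve is that of the curve.
-/
import Fermat.Agent.GaloisMod.Main
import Fermat.Agent.GaloisMod.FreyAttachment
import Fermat.Agent.CondLevel.Compare
import Fermat.Agent.Lifting.BResidual
import Fermat.Agent.ECRed.Frobenius
import Fermat.Agent.Ribet.FreyTorsion
import Fermat.Agent.RepLemmas.Galois
import Fermat.Prelude.Def_FLTPrelim_ModularRep

set_option autoImplicit false
set_option linter.style.haveILetI false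

noncomputable section

namespace Fermat.Agent.Ribet.General

open Polynomial
open scoped WeierstrassCurve.Affine TensorProduct

local notation "ℚbar" => AlgebraicClosure ℚ
local notation "Γℚ" => AlgebraicClosure ℚ ≃ₐ[ℚ] AlgebraicClosure ℚ

variable {W : WeierstrassCurve ℤ} {p : ℕ} [Fact p.Prime]

/-- Irreducibility descends from the trivial extension of scalars. -/
theorem isIrreducible_of_baseChange_self {k : Type} [Field k] (ρ : ResidualGaloisRep k)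
    (h : (ρ.baseChange k).IsIrreducible) : ρ.IsIrreducible := by
  intro U hU
  let e : k ⊗[k] ρ.V ≃ₗ[k] ρ.V := TensorProduct.lid k ρ.V
  have he : ∀ σ x, e ((ρ.baseChange k).ρ σ x) = ρ.ρ σ (e x) := fun σ x => by
    induction x using TensorProduct.induction_on with
    | zero => simp
    | tmul a v => simp [e]
    | add x y hx hy => simp only [map_add, hx, hy]
  rcases h (U.comap e.toLinearMap) (fun σ x hx => by
    show e ((ρ.baseChange k).ρ σ x) ∈ U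
    rw [he]; exact hU σ _ hx) with hb | ht
  · left
    rw [eq_bot_iff]
    intro v hv
    have : e.symm v ∈ U.comap e.toLinearMap := by simpa using hv
    rw [hb, Submodule.mem_bot, LinearEquiv.map_eq_zero_iff] at this
    exact this
  · right
    rw [eq_top_iff]
    intro v _
    have : e.symm v ∈ U.comap e.toLinearMap := by rw [ht]; trivial
    simpa using this

/-- An eigenform congruent to `W` at almost all primes has a residual representation equivalent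
to `E[p]`: it gives the congruence at every good prime and the ramification. -/
theorem congruence_and_unramified (hΔ : W.Δ ≠ 0) (hp2 : p ≠ 2) (hirr : W.ModRepIsIrreducible p)
    {L : ℕ} [NeZero L] {f : CuspForm (CongruenceSubgroup.Gamma0 L) 2}
    (hf : f.IsNormalizedEigenform) (𝔪 : Ideal (integralClosure ℤ ℂ)) (h𝔪 : 𝔪.IsMaximal)
    (hp𝔪 : (p : integralClosure ℤ ℂ) ∈ 𝔪) (S : Finset ℕ)
    (hcong : ∀ ℓ : ℕ, ℓ.Prime → ℓ ∉ S → W.IsGoodPrimeFor ℓ → ¬ ℓ ∣ L → ℓ ≠ p →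
      ∃ a : integralClosure ℤ ℂ, (a : ℂ) = ModularFormClass.qCoeff f ℓ ∧
        a - ((W.apOfModel ℓ : ℤ) : integralClosure ℤ ℂ) ∈ 𝔪) :
    (∀ ℓ : ℕ, ℓ.Prime → W.IsGoodPrimeFor ℓ → ¬ ℓ ∣ L → ℓ ≠ p →
      ∃ a : integralClosure ℤ ℂ, (a : ℂ) = ModularFormClass.qCoeff f ℓ ∧
        a - ((W.apOfModel ℓ : ℤ) : integralClosure ℤ ℂ) ∈ 𝔪) ∧
    ∀ ℓ : ℕ, ℓ.Prime → ¬ ℓ ∣ L → ℓ ≠ p → ∀ A : ValuationSubring ℚbar, A.LiesOverPrime ℓ →
      ∀ σ ∈ A.inertiaSubgroupIn ℚ, Lifting.torsRep W p σ = 1 := by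
  classical
  have hp : p.Prime := Fact.out
  haveI : NeZero p := ⟨hp.ne_zero⟩
  haveI := Lifting.isElliptic_tors (W := W) hΔ
  haveI : Module.Finite (ZMod p) (Lifting.Tors W p) :=
    Module.finite_of_finrank_eq_succ (Lifting.finrank_tors (p := p) hΔ)
  have hcard : Nat.card (Lifting.Tors W p) = p ^ 2 := EC.card_torsionBy_Qbar hp.ne_zero
  have hker := EC.galoisFactorsThroughFiniteLevel (W.map (Int.castRingHom ℚ)).toAffine hp.ne_zero
  let K := integralClosure ℤ ℂ ⧸ 𝔪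
  letI : Field K := Ideal.Quotient.field 𝔪
  let ψ : integralClosure ℤ ℂ →+* K := Ideal.Quotient.mk 𝔪
  haveI : CharP K p := (CharP.charP_iff_prime_eq_zero hp).mpr (by
    rw [← map_natCast ψ]
    exact Ideal.Quotient.eq_zero_iff_mem.mpr hp𝔪)
  letI : Algebra (ZMod p) K := ZMod.algebra K p
  set φ : ZMod p →+* K := algebraMap (ZMod p) K
  let ρE : ResidualGaloisRep K :=
    ((W.map (Int.castRingHom ℚ)).residualGaloisRepOf p hcard hker).baseChange K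
  have hρE : ∀ σ, ρE.ρ σ = (Lifting.torsRep W p σ).baseChange K := fun σ => rfl
  have hcharE : ∀ σ, (ρE.ρ σ).charpoly = (Lifting.torsRep W p σ).charpoly.map φ := fun σ => by
    rw [hρE]; exact LinearMap.charpoly_baseChange (Lifting.torsRep W p σ) K
  have htrE : ∀ σ, LinearMap.trace K ρE.V (ρE.ρ σ) =
      φ (LinearMap.trace (ZMod p) (Lifting.Tors W p) (Lifting.torsRep W p σ)) := fun σ => by
    rw [hρE]; exact LinearMap.trace_baseChange (Lifting.torsRep W p σ) K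
  have hdetE : ∀ σ, LinearMap.det (ρE.ρ σ) = φ (LinearMap.det (Lifting.torsRep W p σ)) := fun σ => by
    rw [hρE]; exact LinearMap.det_baseChange (Lifting.torsRep W p σ)
  have hirrE : ρE.IsIrreducible := by
    have h := Lifting.irreducible_baseChange φ ρE hΔ hp2 hirr htrE hdetE K
    intro U hU
    exact isIrreducible_of_baseChange_self ρE h U hU
  have hfrobE : ∀ ℓ : ℕ, ℓ.Prime → W.IsGoodPrimeFor ℓ → ℓ ≠ p →
      ∀ A : ValuationSubring ℚbar, A.LiesOverPrime ℓ → ∀ σ : Γℚ, A.IsFrobeniusAt σ ℓ →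
        (ρE.ρ σ).charpoly = X ^ 2 - C ((W.apOfModel ℓ : ℤ) : K) * X + C ((ℓ : K)) := by
    intro ℓ hℓ hg hℓp A hA σ hσ
    rw [hcharE, show (Lifting.torsRep W p σ).charpoly = _ from
      ECRed.charpoly_frobenius hℓ hA hg hσ (Ne.symm hℓp)]
    simp
  obtain ⟨ρf, hatt, hun⟩ := GaloisMod.exists_residualRep_of_eigenform hf hp ψ
  -- equal characteristic polynomials everywhere
  obtain ⟨L₁, hL₁, hf1⟩ := ρf.factorsThroughFiniteLevel
  obtain ⟨L₂, hL₂, hE1⟩ := ρE.factorsThroughFiniteLevel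
  let bf := Module.finBasisOfFinrankEq K ρf.V ρf.finrank_eq
  let bE := Module.finBasisOfFinrankEq K ρE.V ρE.finrank_eq
  let r₁ : Γℚ →* Matrix (Fin 2) (Fin 2) K :=
    (LinearMap.toMatrixAlgEquiv bf).toMulEquiv.toMonoidHom.comp ρf.ρ
  let r₂ : Γℚ →* Matrix (Fin 2) (Fin 2) K :=
    (LinearMap.toMatrixAlgEquiv bE).toMulEquiv.toMonoidHom.comp ρE.ρ
  have hr₁ : ∀ σ, r₁ σ = LinearMap.toMatrixAlgEquiv bf (ρf.ρ σ) := fun σ => rfl
  have hr₂ : ∀ σ, r₂ σ = LinearMap.toMatrixAlgEquiv bE (ρE.ρ σ) := fun σ => rfl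
  set bad : Finset ℕ := S ∪ L.primeFactors ∪ W.Δ.natAbs.primeFactors ∪ {p}
  have hgood : ∀ ℓ : ℕ, ℓ.Prime → ℓ ∉ bad → W.IsGoodPrimeFor ℓ ∧ ¬ ℓ ∣ L ∧ ℓ ≠ p ∧ ℓ ∉ S := by
    intro ℓ hℓ h
    simp only [bad, Finset.mem_union, Nat.mem_primeFactors, Finset.mem_singleton, not_or] at h
    obtain ⟨⟨⟨hS, hL⟩, hD⟩, hlp⟩ := h
    refine ⟨fun hd => hD ⟨hℓ, Int.natCast_dvd.mp hd, ?_⟩,
      fun hd => hL ⟨hℓ, hd, NeZero.ne L⟩, hlp, hS⟩
    exact Int.natAbs_ne_zero.mpr hΔ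
  have key : ∀ ℓ : ℕ, ℓ.Prime → ¬ ℓ ∣ L → ℓ ≠ p →
      ∀ A : ValuationSubring ℚbar, A.LiesOverPrime ℓ → ∀ σ : Γℚ, A.IsFrobeniusAt σ ℓ →
        ∃ a : integralClosure ℤ ℂ, (a : ℂ) = ModularFormClass.qCoeff f ℓ ∧
          LinearMap.charpoly (ρf.ρ σ) = X ^ 2 - C (ψ a) * X + C ((ℓ : K)) := by
    intro ℓ hℓ hℓL hℓp A hA σ hσ
    refine hatt ℓ hℓ hℓL (fun h => hℓp ?_) A hA σ hσ
    exact ((Nat.prime_dvd_prime_iff_eq hp hℓ).mp ((CharP.cast_eq_zero_iff K p ℓ).mp h)).symm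
  have hall : ∀ σ, (r₁ σ).trace = (r₂ σ).trace ∧ (r₁ σ).det = (r₂ σ).det := by
    haveI := hL₁; haveI := hL₂
    refine CondLevel.trace_det_eq_of_frobenius r₁ r₂ (L₁ ⊔ L₂) ?_ ?_ bad ?_
    · intro σ hσ
      rw [hr₁, hf1 σ fun x hx => hσ x ((le_sup_left : L₁ ≤ L₁ ⊔ L₂) hx), map_one]
    · intro σ hσ
      rw [hr₂, hE1 σ fun x hx => hσ x ((le_sup_right : L₂ ≤ L₁ ⊔ L₂) hx), map_one]
    · intro ℓ hℓ hbad A hA σ hσ
      obtain ⟨hg, hℓL, hℓp, hS⟩ := hgood ℓ hℓ hbad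
      obtain ⟨a, ha, hch⟩ := key ℓ hℓ hℓL hℓp A hA σ hσ
      obtain ⟨a', ha', hmem⟩ := hcong ℓ hℓ hS hg hℓL hℓp
      obtain rfl : a = a' := Subtype.ext (ha.trans ha'.symm)
      have hψ : ψ a = ((W.apOfModel ℓ : ℤ) : K) := by
        rw [← map_intCast ψ]
        exact Ideal.Quotient.eq.mpr hmem
      rw [hψ] at hch
      obtain ⟨t₁, d₁⟩ := CondLevel.trace_det_of_charpoly_eq bf _ hch
      obtain ⟨t₂, d₂⟩ := CondLevel.trace_det_of_charpoly_eq bE _ (hfrobE ℓ hℓ hg hℓp A hA σ hσ)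
      rw [hr₁, hr₂]
      refine ⟨?_, ?_⟩
      · change (LinearMap.toMatrix bf bf (ρf.ρ σ)).trace = (LinearMap.toMatrix bE bE (ρE.ρ σ)).trace
        rw [← LinearMap.trace_eq_matrix_trace K bf, ← LinearMap.trace_eq_matrix_trace K bE, t₁, t₂]
      · change (LinearMap.toMatrix bf bf (ρf.ρ σ)).det = (LinearMap.toMatrix bE bE (ρE.ρ σ)).det
        rw [LinearMap.det_toMatrix, LinearMap.det_toMatrix, d₁, d₂]
  have hcp : ∀ σ, (ρE.ρ σ).charpoly = (ρf.ρ σ).charpoly := fun σ => by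
    obtain ⟨ht, hd⟩ := hall σ
    rw [hr₁, hr₂] at ht hd
    rw [← LinearMap.charpoly_toMatrix (ρE.ρ σ) bE, ← LinearMap.charpoly_toMatrix (ρf.ρ σ) bf,
      Matrix.charpoly_fin_two, Matrix.charpoly_fin_two]
    change _ = X ^ 2 - C ((LinearMap.toMatrix bf bf (ρf.ρ σ)).trace) * X +
      C ((LinearMap.toMatrix bf bf (ρf.ρ σ)).det)
    rw [show (LinearMap.toMatrix bf bf (ρf.ρ σ)).trace = _ from ht,
      show (LinearMap.toMatrix bf bf (ρf.ρ σ)).det = _ from hd]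
    rfl
  refine ⟨fun ℓ hℓ hg hℓL hℓp => ?_, fun ℓ hℓ hℓL hℓp A hA σ hσ => ?_⟩
  · obtain ⟨A, σ, hA, hσ⟩ := Galois.exists_valuationSubring_isFrobeniusAt hℓ
    obtain ⟨a, ha, hch⟩ := key ℓ hℓ hℓL hℓp A hA σ hσ
    refine ⟨a, ha, Ideal.Quotient.eq.mp ?_⟩
    have h2 := (CondLevel.trace_det_of_charpoly_eq bf _ hch).1
    have h3 := (CondLevel.trace_det_of_charpoly_eq bf _
      ((hcp σ).symm.trans (hfrobE ℓ hℓ hg hℓp A hA σ hσ))).1
    change ψ a = ψ _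
    rw [map_intCast, ← h2, h3]
  · obtain ⟨e⟩ := RepLemmas.residual_isEquiv_of_charpoly_eq ρE ρf
      hirrE hcp
    have hlp : ¬ ℓ ∣ L * p := fun h => (hℓ.dvd_mul.mp h).elim hℓL
      fun h => hℓp ((Nat.prime_dvd_prime_iff_eq hℓ hp).mp h)
    have h1 : ρf.ρ σ = 1 := hun ℓ hℓ hlp A hA σ hσ
    rw [← baseChange_eq_one_iff K, ← hρE]
    refine LinearMap.ext fun x => e.toLinearEquiv.injective ?_
    rw [e.map_apply σ x, h1]
    rfl

/-- Congruence at almost all primes is congruence at all good primes. -/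
theorem isResiduallyModularOfLevel_of_eigenform (hΔ : W.Δ ≠ 0) (hp2 : p ≠ 2)
    (hirr : W.ModRepIsIrreducible p) {L : ℕ} [NeZero L]
    {f : CuspForm (CongruenceSubgroup.Gamma0 L) 2} (hf : f.IsNormalizedEigenform)
    (𝔪 : Ideal (integralClosure ℤ ℂ)) (h𝔪 : 𝔪.IsMaximal)
    (hp𝔪 : (p : integralClosure ℤ ℂ) ∈ 𝔪) (S : Finset ℕ)
    (hcong : ∀ ℓ : ℕ, ℓ.Prime → ℓ ∉ S → W.IsGoodPrimeFor ℓ → ¬ ℓ ∣ L → ℓ ≠ p →
      ∃ a : integralClosure ℤ ℂ, (a : ℂ) = ModularFormClass.qCoeff f ℓ ∧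
        a - ((W.apOfModel ℓ : ℤ) : integralClosure ℤ ℂ) ∈ 𝔪) :
    W.IsResiduallyModularOfLevel p L :=
  ⟨f, 𝔪, hf, h𝔪, hp𝔪,
    (congruence_and_unramified hΔ hp2 hirr hf 𝔪 h𝔪 hp𝔪 S hcong).1⟩

/-- A prime `ℓ ≠ p` at which `E[p]` is ramified divides every residually modular level. -/
theorem dvd_of_ramified (hΔ : W.Δ ≠ 0) (hp2 : p ≠ 2) (hirr : W.ModRepIsIrreducible p)
    {L : ℕ} [NeZero L] (hres : W.IsResiduallyModularOfLevel p L)
    {ℓ : ℕ} (hℓ : ℓ.Prime) (hℓp : ℓ ≠ p) {A : ValuationSubring ℚbar} (hA : A.LiesOverPrime ℓ)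
    {σ : Γℚ} (hσ : σ ∈ A.inertiaSubgroupIn ℚ) (hne : Lifting.torsRep W p σ ≠ 1) : ℓ ∣ L := by
  obtain ⟨f, 𝔪, hf, h𝔪, hp𝔪, hcong⟩ := hres
  by_contra h
  exact hne ((congruence_and_unramified hΔ hp2 hirr hf 𝔪 h𝔪 hp𝔪 ∅
    fun ℓ hℓ _ => hcong ℓ hℓ).2 ℓ hℓ h hℓp A hA σ hσ)

end Fermat.Agent.Ribet.General
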