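/-
An auxiliary prime at which no level raising is possible is removed from the level.
-/
import Fermat.Agent.Ribet.General.Attached
import Fermat.Agent.Ribet.GlueLift
import Fermat.Agent.Ribet.GeneralFacts
import Fermat.Agent.NewformRep.Main
import Fermat.Agent.Integral.Eigenform
import Fermat.Agent.Newform.Descent
import Fermat.Agent.CondLevel.Raise
import Mathlib.NumberTheory.Padics.RingHoms

set_option autoImplicit false
set_option linter.style.haveILetI false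

noncomputable section

namespace Fermat.Agent.Ribet.General

open Polynomial IsLocalRing ModularFormClass
open scoped WeierstrassCurve.Affine TensorProduct

local notation "ℚbar" => AlgebraicClosure ℚ
local notation "Γℚ" => AlgebraicClosure ℚ ≃ₐ[ℚ] AlgebraicClosure ℚ

variable {W : WeierstrassCurve ℤ} {p : ℕ} [Fact p.Prime]

/-- A ring of algebraic integers finite over `ℤ` maps to a complete discrete valuation ring over
`p` so that a given residual character is the reduction. -/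
theorem exists_point_over {R : Type} [CommRing R] [Module.Finite ℤ R] [Module.Free ℤ R] {k : Type}
    [Field k] [CharP k p] (ψ : R →+* k) :
    ∃ (O : Type) (_ : CommRing O) (_ : IsDomain O) (_ : IsDiscreteValuationRing O)
      (_ : IsAdicComplete (maximalIdeal O) O) (_ : Finite (ResidueField O)) (_ : CharZero O)
      (ι : R →+* O), (p : O) ∈ maximalIdeal O ∧ ∀ x, ψ x = 0 → ι x ∈ maximalIdeal O := by
  letI : Algebra ℤ_[p] k := ((ZMod.castHom dvd_rfl k).comp PadicInt.toZMod).toAlgebra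
  haveI : Finite (ResidueField ℤ_[p]) :=
    Finite.of_equiv _ (PadicInt.residueField (p := p)).symm.toEquiv
  let ψA : ℤ_[p] ⊗[ℤ] R →ₐ[ℤ_[p]] k :=
    Algebra.TensorProduct.lift (Algebra.ofId ℤ_[p] k) ψ.toIntAlgHom fun _ _ => Commute.all _ _
  haveI : (RingHom.ker ψA.toRingHom).IsPrime := RingHom.ker_isPrime _
  have hQ : (maximalIdeal ℤ_[p]).map (algebraMap ℤ_[p] (ℤ_[p] ⊗[ℤ] R)) ≤
      RingHom.ker ψA.toRingHom := by
    rw [PadicInt.maximalIdeal_eq_span_p, Ideal.map_span, Ideal.span_le, Set.image_singleton,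
      Set.singleton_subset_iff]
    show ψA (algebraMap ℤ_[p] (ℤ_[p] ⊗[ℤ] R) (p : ℤ_[p])) = 0
    rw [map_natCast, map_natCast, CharP.cast_eq_zero]
  obtain ⟨O, i1, i2, i3, i4, i5, i6, i7, -, φ, -, -, hφ⟩ :=
    Glue.exists_point_of_prime ℤ_[p] (RingHom.ker ψA.toRingHom) hQ
  refine ⟨O, i1, i2, i3, i4, i5, i6,
    φ.toRingHom.comp (Algebra.TensorProduct.includeRight : R →ₐ[ℤ] ℤ_[p] ⊗[ℤ] R).toRingHom, ?_,
    fun x hx => ?_⟩
  · have h : ((p : ℕ) : ℤ_[p] ⊗[ℤ] R) ∈ (maximalIdeal O).comap φ := by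
      rw [hφ]
      show ψA ((p : ℕ) : ℤ_[p] ⊗[ℤ] R) = 0
      rw [map_natCast, CharP.cast_eq_zero]
    rw [Ideal.mem_comap, map_natCast] at h
    exact h
  · have h : ((1 : ℤ_[p]) ⊗ₜ[ℤ] x) ∈ (maximalIdeal O).comap φ := by
      rw [hφ]
      show ψA ((1 : ℤ_[p]) ⊗ₜ[ℤ] x) = 0
      rw [Algebra.TensorProduct.lift_tmul, map_one, one_mul]
      exact hx
    exact h

/-- A newform congruent to `W` at almost all primes and exactly divisible in level by a good prime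
`r ≠ p` has `a_r(W) ≡ ± (r + 1)`. -/
theorem dvd_sq_sub_of_newform (hΔ : W.Δ ≠ 0) {L : ℕ} [NeZero L]
    {g : CuspForm (CongruenceSubgroup.Gamma0 L) 2} (hg : g.IsNewform)
    (𝔪 : Ideal (integralClosure ℤ ℂ)) (h𝔪 : 𝔪.IsMaximal)
    (hp𝔪 : (p : integralClosure ℤ ℂ) ∈ 𝔪) (T : Finset ℕ)
    (hcong : ∀ ℓ : ℕ, ℓ.Prime → ℓ ∉ T → W.IsGoodPrimeFor ℓ → ¬ ℓ ∣ L → ℓ ≠ p →
      ∃ a : integralClosure ℤ ℂ, (a : ℂ) = qCoeff g ℓ ∧
        a - ((W.apOfModel ℓ : ℤ) : integralClosure ℤ ℂ) ∈ 𝔪)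
    {r : ℕ} (hr : r.Prime) (hrp : r ≠ p) (hrg : W.IsGoodPrimeFor r) (hrL : r ∣ L)
    (hr2 : ¬ r ^ 2 ∣ L) :
    (p : ℤ) ∣ W.apOfModel r ^ 2 - ((r : ℤ) + 1) ^ 2 := by
  classical
  have hp : p.Prime := Fact.out
  haveI : NeZero p := ⟨hp.ne_zero⟩
  haveI := h𝔪
  set S : Finset ℕ := L.primeFactors ∪ {p}
  set chig := Eigen.eigenChar g hg.1 (↑S : Set ℕ)
  haveI : Module.Finite ℤ (CuspForm.heckeAlgebra L 2 (↑S : Set ℕ)) :=
    Integral.moduleFinite_heckeAlgebra L 2 _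
  haveI : Module.Finite ℤ chig.range :=
    Module.Finite.of_surjective chig.rangeRestrict.toIntAlgHom.toLinearMap
      chig.rangeRestrict_surjective
  haveI : IsAddTorsionFree chig.range :=
    Function.Injective.isAddTorsionFree chig.range.subtype.toAddMonoidHom Subtype.val_injective
  haveI : Module.Free ℤ chig.range := Module.free_of_finite_type_torsion_free'
  have hint : ∀ x : chig.range, IsIntegral ℤ (x : ℂ) := by
    rintro ⟨_, t, rfl⟩
    exact Integral.isIntegral_eigenChar hg.1 t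
  let incl : chig.range →+* integralClosure ℤ ℂ :=
    chig.range.subtype.codRestrict (integralClosure ℤ ℂ) hint
  letI := Ideal.Quotient.field 𝔪
  haveI : CharP (integralClosure ℤ ℂ ⧸ 𝔪) p := (CharP.charP_iff_prime_eq_zero hp).mpr (by
    rw [← map_natCast (Ideal.Quotient.mk 𝔪)]; exact Ideal.Quotient.eq_zero_iff_mem.mpr hp𝔪)
  obtain ⟨O', _, _, _, _, _, _, iota, hpO', hiota⟩ :=
    exists_point_over (p := p) ((Ideal.Quotient.mk 𝔪).comp incl)
  have hchig : ∀ (q : ℕ) (hq : q.Prime) (hqL : ¬ q ∣ L) (hqS : q ∉ (↑S : Set ℕ)),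
      chig (CuspForm.heckeAlgebra.T hq hqL hqS) = qCoeff g q :=
    fun q hq hqL hqS => Eigen.eigenChar_T hg.1 hq hqL hqS
  obtain ⟨O'', _, _, _, _, _, _, _, _, _, -, ρ, hρ, hρbad⟩ :=
    NewformRep.exists_galoisRepAdic_newform hg p S O' hpO' chig hchig iota
      (by simp [S]) (fun q hq hqL => by simp [S, hq, hqL, NeZero.ne L])
  set I := maximalIdeal O'' ^ 1 with hId
  have hpI : ((p : ℕ) : O'' ⧸ I) = 0 := by
    rw [← map_natCast (Ideal.Quotient.mk I), Ideal.Quotient.eq_zero_iff_mem, hId, pow_one,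
      ← map_natCast (algebraMap O' O'')]
    exact map_nonunit (algebraMap O' O'') _ hpO'
  haveI := Lifting.isElliptic_tors (W := W) hΔ
  haveI : Module.Finite (ZMod p) (Lifting.Tors W p) :=
    Module.finite_of_finrank_eq_succ (Lifting.finrank_tors (p := p) hΔ)
  let z : ZMod p →+* O'' ⧸ I := CondLevel.zmodHom p hpI
  let bT := Module.finBasisOfFinrankEq (ZMod p) (Lifting.Tors W p) (Lifting.finrank_tors hΔ)
  let r₁ : Γℚ →* Matrix (Fin 2) (Fin 2) (O'' ⧸ I) := CondLevel.adicMatrixRep ρ I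
  let r₂ : Γℚ →* Matrix (Fin 2) (Fin 2) (O'' ⧸ I) :=
    z.mapMatrix.toMonoidHom.comp
      ((LinearMap.toMatrixAlgEquiv bT).toMulEquiv.toMonoidHom.comp (Lifting.torsRep W p))
  have hr₂ : ∀ σ, r₂ σ = z.mapMatrix (LinearMap.toMatrix bT bT (Lifting.torsRep W p σ)) :=
    fun σ => rfl
  have ht₂ : ∀ σ, (r₂ σ).trace = z (LinearMap.trace (ZMod p) _ (Lifting.torsRep W p σ)) := by
    intro σ
    rw [hr₂, LinearMap.trace_eq_matrix_trace (ZMod p) bT, AddMonoidHom.map_trace]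
    rfl
  have hd₂ : ∀ σ, (r₂ σ).det = z (LinearMap.det (Lifting.torsRep W p σ)) := by
    intro σ
    rw [hr₂, ← LinearMap.det_toMatrix bT, RingHom.map_det]
  obtain ⟨L₁, hL₁, hρ1⟩ := ρ.isAdicContinuous 1
  obtain ⟨L₂, hL₂, hE1⟩ := EC.exists_finiteDimensional_fixing_torsionBy
    (W := (W.map (Int.castRingHom ℚ)).toAffine) (n := p) hp.ne_zero
  have hall : ∀ σ, (r₁ σ).trace = (r₂ σ).trace ∧ (r₁ σ).det = (r₂ σ).det := by
    haveI := hL₁; haveI := hL₂
    refine CondLevel.trace_det_eq_of_frobenius r₁ r₂ (L₁ ⊔ L₂) ?_ ?_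
      (T ∪ S ∪ W.Δ.natAbs.primeFactors) ?_
    · exact fun σ hσ => CondLevel.adicMatrixRep_eq_one ρ
        (hρ1 σ fun x hx => hσ x ((le_sup_left : L₁ ≤ L₁ ⊔ L₂) hx))
    · intro σ hσ
      have h1 : Lifting.torsRep W p σ = 1 := LinearMap.ext fun P =>
        hE1 σ (fun x hx => hσ x ((le_sup_right : L₂ ≤ L₁ ⊔ L₂) hx)) P
      rw [hr₂, h1, LinearMap.toMatrix_one, map_one]
    · intro ℓ hℓ hbad A hA τ hτ
      simp only [S, Finset.mem_union, Nat.mem_primeFactors, Finset.mem_singleton, not_or,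
        not_and] at hbad
      obtain ⟨⟨hℓT, hℓL, hℓp⟩, hℓΔ⟩ := hbad
      have hgood : W.IsGoodPrimeFor ℓ := fun h =>
        hℓΔ hℓ (Int.natCast_dvd.mp h) (Int.natAbs_ne_zero.mpr hΔ)
      have hL' : ¬ ℓ ∣ L := fun h => hℓL hℓ h (NeZero.ne L)
      have hℓS : ℓ ∉ (↑S : Set ℕ) := by simp [S, hℓp, hL']
      obtain ⟨t₁, d₁⟩ :=
        CondLevel.trace_det_of_adic_charpoly_eq ρ τ (hρ ℓ hℓ hL' hℓS A hA τ hτ)
      obtain ⟨t₂, d₂⟩ := CondLevel.trace_det_of_charpoly_eq bT _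
        (show (Lifting.torsRep W p τ).charpoly = _ from
          ECRed.charpoly_frobenius hℓ hA hgood hτ (Ne.symm hℓp))
      obtain ⟨c, hc, hcm⟩ := hcong ℓ hℓ hℓT hgood hL' hℓp
      set t := chig.rangeRestrict (CuspForm.heckeAlgebra.T hℓ hL' hℓS)
      have ht : incl t = c := Subtype.ext ((hchig ℓ hℓ hL' hℓS).trans hc.symm)
      have hmem : iota (t - (W.apOfModel ℓ : ℤ)) ∈ maximalIdeal O' := hiota _ <| by
        rw [RingHom.comp_apply, map_sub, map_intCast, ht]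
        exact Ideal.Quotient.eq_zero_iff_mem.mpr hcm
      have hcalc : Ideal.Quotient.mk I (algebraMap O' O'' (iota t)) =
          ((W.apOfModel ℓ : ℤ) : O'' ⧸ I) := by
        rw [← sub_eq_zero, ← map_intCast ((Ideal.Quotient.mk I).comp (algebraMap O' O'')),
          RingHom.comp_apply, ← map_sub, ← map_sub, Ideal.Quotient.eq_zero_iff_mem, hId, pow_one]
        rw [map_sub, map_intCast] at hmem
        exact map_nonunit (algebraMap O' O'') _ hmem
      refine ⟨?_, ?_⟩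
      · rw [CondLevel.trace_adicMatrixRep, t₁, ht₂, t₂, map_intCast, RingHom.comp_apply, hcalc]
      · rw [CondLevel.det_adicMatrixRep, d₁, hd₂, d₂, map_natCast, map_natCast]
  obtain ⟨A, σ, hA, hσ⟩ := Galois.exists_valuationSubring_isFrobeniusAt hr
  have hWr : (r₂ σ).trace = ((W.apOfModel r : ℤ) : O'' ⧸ I) := by
    rw [ht₂, (CondLevel.trace_det_of_charpoly_eq bT _
      (show (Lifting.torsRep W p σ).charpoly = _ from
        ECRed.charpoly_frobenius hr hA hrg hσ (Ne.symm hrp))).1, map_intCast]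
  have hsq : ρ.trace σ ^ 2 = ((r : O'') + 1) ^ 2 := by
    rcases hρbad r hr hrp hrL hr2 A hA σ hσ with h | h
    · rw [(CondLevel.trace_det_of_adic_charpoly_eq ρ σ h).1]
    · rw [(CondLevel.trace_det_of_adic_charpoly_eq ρ σ (t := -((r : O'') + 1)) (d := (r : O''))
        (h.trans (by rw [map_neg]; ring))).1, neg_sq]
  have hzero : ((W.apOfModel r ^ 2 - ((r : ℤ) + 1) ^ 2 : ℤ) : O'' ⧸ I) = 0 := by
    have h := congrArg (Ideal.Quotient.mk I) hsq
    rw [map_pow, ← CondLevel.trace_adicMatrixRep, (hall σ).1, hWr] at h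
    push_cast
    rw [h, map_pow, map_add, map_natCast, map_one, sub_self]
  by_contra hndvd
  obtain ⟨u, v, huv⟩ := ((Nat.prime_iff_prime_int.mp hp).coprime_iff_not_dvd.mpr hndvd)
  have h1 : (1 : O'' ⧸ I) = 0 := by
    have h := congrArg (fun n : ℤ => (n : O'' ⧸ I)) huv
    simp only [Int.cast_add, Int.cast_mul, Int.cast_one, hzero, mul_zero, add_zero,
      Int.cast_natCast, hpI] at h
    exact h.symm
  rw [← map_one (Ideal.Quotient.mk I), Ideal.Quotient.eq_zero_iff_mem, hId, pow_one] at h1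
  exact (Ideal.ne_top_iff_one _).mp (IsLocalRing.maximalIdeal.isMaximal O'').ne_top h1

/-- An auxiliary prime with `a_r² ≢ (r + 1)²` is removed from the level. -/
theorem isResiduallyModularOfLevel_of_mul_aux (hΔ : W.Δ ≠ 0) (hp2 : p ≠ 2)
    (hirr : W.ModRepIsIrreducible p) {M r : ℕ} [NeZero M] (hr : r.Prime) (hrp : r ≠ p)
    (hrM : ¬ r ∣ M) (hrg : W.IsGoodPrimeFor r)
    (hne : ¬ (p : ℤ) ∣ W.apOfModel r ^ 2 - ((r : ℤ) + 1) ^ 2)
    (h : W.IsResiduallyModularOfLevel p (M * r)) : W.IsResiduallyModularOfLevel p M := by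
  haveI : NeZero (M * r) := ⟨mul_ne_zero (NeZero.ne M) hr.ne_zero⟩
  obtain ⟨L, hLMr, hL0, g, 𝔪, hg, h𝔪, hp𝔪, hcong⟩ :=
    Newform.exists_newform_of_isResiduallyModularOfLevel h
  haveI : NeZero L := ⟨hL0.ne'⟩
  have hcong' : ∀ ℓ : ℕ, ℓ.Prime → ℓ ∉ (M * r).primeFactors → W.IsGoodPrimeFor ℓ → ℓ ≠ p →
      ∃ a : integralClosure ℤ ℂ, (a : ℂ) = qCoeff g ℓ ∧
        a - ((W.apOfModel ℓ : ℤ) : integralClosure ℤ ℂ) ∈ 𝔪 := fun ℓ hℓ hT hg' hℓp =>
    hcong ℓ hℓ hg' (fun h => hT (Nat.mem_primeFactors.mpr ⟨hℓ, h, NeZero.ne _⟩)) hℓp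
  have hrL : ¬ r ∣ L := by
    intro hrL
    refine hne (dvd_sq_sub_of_newform hΔ hg 𝔪 h𝔪 hp𝔪 (M * r).primeFactors
      (fun ℓ hℓ hT hg' _ hℓp => hcong' ℓ hℓ hT hg' hℓp) hr hrp hrg hrL fun h2 => hrM ?_)
    rw [sq] at h2
    exact Nat.dvd_of_mul_dvd_mul_right hr.pos (h2.trans hLMr)
  have hLM : L ∣ M :=
    (Nat.Coprime.dvd_of_dvd_mul_right (((Nat.Prime.coprime_iff_not_dvd hr).mpr hrL).symm) hLMr)
  obtain ⟨f, hf, hfg⟩ := CondLevel.exists_eigenform_of_dvd hLM hg.1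
  refine isResiduallyModularOfLevel_of_eigenform hΔ hp2 hirr hf 𝔪 h𝔪 hp𝔪
    (M * r).primeFactors fun ℓ hℓ hT hg' hℓM hℓp => ?_
  obtain ⟨a, ha, hm⟩ := hcong' ℓ hℓ hT hg' hℓp
  exact ⟨a, ha.trans (hfg ℓ hℓ hℓM).symm, hm⟩

/-- At `p = 3` there is a removable auxiliary prime `≡ 2 (mod 3)` outside a given set. -/
theorem exists_removable_aux (hΔ : W.Δ ≠ 0) (hss : W.IsSemistableModel) (hp3 : p = 3)
    (hirr : W.ModRepIsIrreducible p) (T : Finset ℕ) :
    ∃ r : ℕ, r.Prime ∧ r % 3 = 2 ∧ r ∉ T ∧ r ≠ p ∧ W.IsGoodPrimeFor r ∧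
      ¬ (p : ℤ) ∣ W.apOfModel r ^ 2 - ((r : ℤ) + 1) ^ 2 := by
  obtain ⟨r, hr, hrT, hr2, hg, ha⟩ := exists_auxPrime_ap_ne_zero hΔ hss hp3 hirr T
  refine ⟨r, hr, hr2, hrT, by omega, hg, fun hd => ha ?_⟩
  have h0 : (((r : ℤ) + 1 : ℤ) : ZMod p) = 0 :=
    (ZMod.intCast_zmod_eq_zero_iff_dvd _ _).mpr (by rw [hp3]; omega)
  have h1 := (ZMod.intCast_zmod_eq_zero_iff_dvd _ p).mpr hd
  rw [Int.cast_sub, Int.cast_pow, Int.cast_pow, h0, zero_pow two_ne_zero, sub_zero] at h1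
  exact pow_eq_zero_iff two_ne_zero |>.mp h1

end Fermat.Agent.Ribet.General
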