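/-
Characters of finite free rings with values in an algebraic closure of a coefficient ring,
congruent to a given residual one (Deligne–Serre over a base).
-/
import Mathlib

set_option autoImplicit false
set_option linter.style.haveILetI false

noncomputable section

namespace Fermat.Agent.Ribet.General

open IsLocalRing
open scoped TensorProduct

variable {O : Type} [CommRing O] [IsDomain O] {K : Type} [Field K] [IsAlgClosed K] [Algebra O K]
  [FaithfulSMul O K] {kk : Type} [Field kk]

/-- A character of a finite torsion-free algebra with values in a field lifts to a character with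
values in an algebraic closure of the coefficients, with kernel inside its kernel. -/
theorem exists_algHom_ker_le {A : Type} [CommRing A] [Algebra O A] [Module.Finite O A]
    [Module.IsTorsionFree O A] (ψ : A →+* kk) :
    ∃ F : A →ₐ[O] K, ∀ z, F z = 0 → ψ z = 0 := by
  haveI : (RingHom.ker ψ).IsPrime := RingHom.ker_isPrime _
  obtain ⟨P, hP, hPQ⟩ :=
    Ideal.exists_minimalPrimes_le (bot_le : (⊥ : Ideal A) ≤ RingHom.ker ψ)
  haveI : P.IsPrime := hP.isPrime
  have hinj : Function.Injective (algebraMap O (A ⧸ P)) := by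
    rw [injective_iff_map_eq_zero]
    intro o ho
    by_contra ho0
    have h1 : algebraMap O A o ∈ P := by rwa [← Ideal.Quotient.eq_zero_iff_mem]
    refine Set.disjoint_left.mp (Ideal.disjoint_nonZeroDivisors_of_mem_minimalPrimes hP) h1 ?_
    refine mem_nonZeroDivisors_iff_right.mpr fun y hy => ?_
    have h2 : o • y = 0 := by rw [Algebra.smul_def, mul_comm]; exact hy
    exact (smul_eq_zero_iff_right ho0).mp h2
  haveI := (faithfulSMul_iff_algebraMap_injective O (A ⧸ P)).mpr hinj
  haveI : Algebra.IsAlgebraic O (A ⧸ P) := Algebra.IsIntegral.isAlgebraic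
  let g : (A ⧸ P) →ₐ[O] K := IsAlgClosed.lift
  have hker : RingHom.ker g.toRingHom = ⊥ := Ideal.eq_bot_of_comap_eq_bot (R := O) <| by
    ext o
    simp only [Ideal.mem_comap, RingHom.mem_ker, Submodule.mem_bot]
    change g (algebraMap O (A ⧸ P) o) = 0 ↔ o = 0
    rw [AlgHom.commutes, map_eq_zero_iff _ (FaithfulSMul.algebraMap_injective O K)]
  refine ⟨g.comp (Ideal.Quotient.mkₐ O P), fun z hz => hPQ ?_⟩
  have h : Ideal.Quotient.mk P z ∈ RingHom.ker g.toRingHom := hz
  rw [hker, Submodule.mem_bot] at h
  exact Ideal.Quotient.eq_zero_iff_mem.mp h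

/-- A residual character of a finite free ring is the specialisation of a character with values in
an algebraic closure of the coefficients, for every polynomial relation over the coefficients. -/
theorem exists_congruent_hom {T : Type} [CommRing T] [Module.Finite ℤ T] [Module.Free ℤ T]
    (κ : O →+* kk) (ψ : T →+* kk) :
    ∃ e : T →+* K, ∀ {σ : Type} (x : σ → T) (P : MvPolynomial σ O),
      MvPolynomial.eval₂ (algebraMap O K) (fun i => e (x i)) P = 0 →
        MvPolynomial.eval₂ κ (fun i => ψ (x i)) P = 0 := by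
  letI : Algebra O kk := κ.toAlgebra
  let ψA : O ⊗[ℤ] T →ₐ[O] kk :=
    Algebra.TensorProduct.lift (Algebra.ofId O kk) ψ.toIntAlgHom fun _ _ => Commute.all _ _
  obtain ⟨F, hF⟩ := exists_algHom_ker_le (O := O) (K := K) ψA.toRingHom
  let inc : T →+* O ⊗[ℤ] T :=
    (Algebra.TensorProduct.includeRight : T →ₐ[ℤ] O ⊗[ℤ] T).toRingHom
  refine ⟨F.toRingHom.comp inc, fun x Q hQ => ?_⟩
  have h1 : ∀ {B : Type} [CommRing B] [Algebra O B] (G : O ⊗[ℤ] T →ₐ[O] B),
      MvPolynomial.eval₂ (algebraMap O B) (fun i => G (inc (x i))) Q =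
        G (MvPolynomial.aeval (fun i => inc (x i)) Q) := fun G => by
    rw [← MvPolynomial.aeval_def]
    exact (MvPolynomial.comp_aeval_apply (fun i => inc (x i)) G Q).symm
  have hψ : ∀ t, ψA (inc t) = ψ t := fun t => by
    show ψA ((1 : O) ⊗ₜ[ℤ] t) = ψ t
    rw [Algebra.TensorProduct.lift_tmul, map_one, one_mul]
    rfl
  have h2 := (h1 ψA).trans (hF _ ((h1 F).symm.trans hQ))
  simp only [hψ] at h2
  exact h2

end Fermat.Agent.Ribet.General
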