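/-
Residual modularity and congruent systems of eigenvalues on cohomology with trivial character.
-/
import Fermat.Agent.Ribet.Avoid.FromCurve
import Fermat.Agent.Ribet.General.Lift
import Fermat.Agent.Ribet.Twisted.Twist
import Fermat.Agent.HeckeCohom.Faithful
import Fermat.Agent.Integral.Eigenform
import Fermat.Agent.CondLevel.Raise
import Fermat.Agent.Eigen.Lifting
import Fermat.Agent.Ribet.General.Attached
import Fermat.Prelude.Def_FLTPrelim_ModularRep

set_option autoImplicit false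
set_option linter.style.haveILetI false

noncomputable section

namespace Fermat.Agent.Ribet.General

open IsLocalRing CongruenceSubgroup ModularFormClass
open Fermat.Agent.Ribet.Twisted Fermat.Agent.Ribet.Avoid
open Fermat.Agent.HeckeCohom (heckeHom heckeAct heckeBeta gamma0GL isCosetSystem)

/-- A common eigenvector among homomorphisms gives a system with trivial character. -/
theorem hasSystem_of_eigenHom {N : ℕ} [NeZero N] {K : Type} [Field K] {S : Finset ℕ}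
    (φ : Additive (Gamma0 N) →+ K) (hφ : φ ≠ 0) (a : ℕ → K)
    (heig : ∀ ℓ : Nat.Primes, (ℓ : ℕ) ∉ S → heckeHom N K K ℓ φ = a ℓ • φ) :
    HasSystem (one_dvd N) (1 : DirichletCharacter K 1) S a := by
  have hu : ∀ z : ZMod 1, (1 : DirichletCharacter K 1) z = 1 := fun z =>
    MulChar.one_apply (by rw [Subsingleton.elim z 1]; exact isUnit_one)
  have hchr : ∀ g, chr (one_dvd N) (1 : DirichletCharacter K 1) g = 1 := fun g => by
    rw [chr_apply, hu, one_pow]
  have hz : (fun g : Gamma0 N => φ (Additive.ofMul g)) ∈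
      cocycles (chr (one_dvd N) (1 : DirichletCharacter K 1)) K := fun g h => by
    simp [hchr, ofMul_mul]
  refine ⟨Coh.mk (chr (one_dvd N) (1 : DirichletCharacter K 1)) K ⟨_, hz⟩, fun h0 => hφ ?_, fun ℓ hℓ hℓS => ?_⟩
  · obtain ⟨c, hc⟩ := Coh.mk_eq_zero.mp h0
    refine AddMonoidHom.ext fun g => ?_
    have h := congrFun (congrArg Subtype.val hc) (Additive.toMul g)
    simpa [hchr] using h.symm
  · haveI : Fact ℓ.Prime := ⟨hℓ⟩
    haveI : NeZero ℓ := ⟨hℓ.ne_zero⟩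
    have hℓ1 : ¬ ℓ ∣ 1 := fun h => hℓ.ne_one (Nat.dvd_one.mp h)
    set hOp := heckeOpData (one_dvd N) (1 : DirichletCharacter K 1) (Fact.out : ℓ.Prime) hℓ1
    rw [heckeT'_eq _ _ _ hℓ1, hOp.op_mk, ← map_smul]
    refine congrArg _ (Subtype.ext (funext fun g => ?_))
    rw [hOp.opCocycle_apply]
    have h := DFunLike.congr_fun (heig ⟨ℓ, hℓ⟩ hℓS) (Additive.ofMul g)
    rw [HeckeCohom.heckeHom_eq_sum ⟨ℓ, hℓ⟩ φ g _ _ (hOp.spec g)] at h
    refine Eq.trans (Finset.sum_congr rfl fun i _ => ?_) h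
    have hw : heckeWeight N (1 : DirichletCharacter K 1) ℓ i = 1 := by
      obtain ⟨i, hi⟩ := i
      rcases i with _ | x
      · exact hu _
      · show (1 : DirichletCharacter K 1)⁻¹ _ = 1
        rw [inv_one, hu]
    rw [hw, one_smul]

variable {W : WeierstrassCurve ℤ} {p : ℕ} [Fact p.Prime] (d : CurveResidual W p)

theorem algebraMap_K_injective : Function.Injective (algebraMap d.O d.K) := by
  rw [IsScalarTower.algebraMap_eq d.O (FractionRing d.O) d.K]
  exact (algebraMap (FractionRing d.O) d.K).injective.comp (IsFractionRing.injective _ _)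

/-- Residual modularity at a level gives a congruent system at every multiple of it. -/
theorem exists_system_of_isResiduallyModularOfLevel {L L' : ℕ} [NeZero L'] (hL : L ∣ L')
    (h : W.IsResiduallyModularOfLevel p L) (S : Finset ℕ)
    (hS : ∀ ℓ : ℕ, ℓ.Prime → ℓ ∉ S → W.IsGoodPrimeFor ℓ ∧ ℓ ≠ p ∧ ¬ ℓ ∣ L') :
    ∃ a : ℕ → d.K, HasSystem (one_dvd L') (1 : DirichletCharacter d.K 1) S a ∧
      IsCongruent (algebraMap d.O d.K) (residue d.O) d.abar S a := by
  classical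
  obtain ⟨f, 𝔪, hf, h𝔪, hp, hcong⟩ := h
  obtain ⟨f', hf', hff'⟩ := CondLevel.exists_eigenform_of_dvd hL hf
  haveI := h𝔪
  haveI : FaithfulSMul d.O d.K :=
    (faithfulSMul_iff_algebraMap_injective _ _).mpr (algebraMap_K_injective d)
  set T := CuspForm.heckeAlgebra L' 2 (∅ : Set ℕ)
  haveI hfin : Module.Finite ℤ T := HeckeCohom.heckeAlgebra_two_finite L'
  haveI : IsAddTorsionFree T := inferInstance
  haveI : Module.Free ℤ T := Module.free_of_finite_type_torsion_free'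
  let χ : T →+* integralClosure ℤ ℂ :=
    (Eigen.eigenChar f' hf' ∅).codRestrict (integralClosure ℤ ℂ)
      fun t => Integral.isIntegral_eigenChar hf' t
  letI := Ideal.Quotient.field 𝔪
  haveI : CharP (integralClosure ℤ ℂ ⧸ 𝔪) p :=
    (CharP.charP_iff_prime_eq_zero Fact.out).mpr (by
      rw [← map_natCast (Ideal.Quotient.mk 𝔪)]; exact Ideal.Quotient.eq_zero_iff_mem.mpr hp)
  letI := ZMod.algebra (integralClosure ℤ ℂ ⧸ 𝔪) p
  haveI := d.charP_k
  let kk := AlgebraicClosure d.k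
  haveI : CharP kk p := charP_of_injective_algebraMap (algebraMap d.k kk).injective p
  letI := ZMod.algebra kk p
  haveI : Algebra.IsIntegral ℤ (integralClosure ℤ ℂ ⧸ 𝔪) :=
    Algebra.IsIntegral.of_surjective ((Ideal.Quotient.mkₐ ℤ 𝔪))
      (Ideal.Quotient.mkₐ_surjective ℤ 𝔪)
  haveI : IsScalarTower ℤ (ZMod p) (integralClosure ℤ ℂ ⧸ 𝔪) :=
    IsScalarTower.of_algebraMap_eq' (RingHom.ext_int _ _)
  haveI : Algebra.IsIntegral (ZMod p) (integralClosure ℤ ℂ ⧸ 𝔪) :=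
    Algebra.IsIntegral.tower_top (R := ℤ)
  haveI : Algebra.IsAlgebraic (ZMod p) (integralClosure ℤ ℂ ⧸ 𝔪) :=
    Algebra.IsIntegral.isAlgebraic
  let emb : (integralClosure ℤ ℂ ⧸ 𝔪) →ₐ[ZMod p] kk := IsAlgClosed.lift
  let ψ : T →+* kk := emb.toRingHom.comp ((Ideal.Quotient.mk 𝔪).comp χ)
  obtain ⟨e, he⟩ := exists_congruent_hom (K := d.K)
    ((algebraMap d.k kk).comp (residue d.O)) ψ
  let gen : ℕ → T := fun ℓ =>
    if hℓ : ℓ.Prime ∧ ¬ ℓ ∣ L' then CuspForm.heckeAlgebra.T hℓ.1 hℓ.2 (Set.notMem_empty ℓ) else 0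
  refine ⟨fun ℓ => e (gen ℓ), ?_, ?_⟩
  · obtain ⟨φ, hφ, hφt⟩ := HeckeCohom.exists_eigenvector e
    refine hasSystem_of_eigenHom (φ : Additive (Gamma0 L') →+ d.K)
      (fun h0 => hφ (Subtype.ext h0)) _ fun ℓ hℓS => ?_
    have hN := (hS ℓ ℓ.2 hℓS).2.2
    have h := congrArg Subtype.val (hφt (gen ℓ))
    simp only [gen, dif_pos (And.intro ℓ.2 hN)] at h ⊢
    rw [HeckeCohom.heckeAct_T] at h
    exact h
  · intro P hP
    have h0 := he (fun ℓ : GoodPrime S => gen ℓ.1) P hP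
    have hval : ∀ ℓ : GoodPrime S, ψ (gen ℓ.1) = algebraMap d.k kk (d.abar ℓ.1) := by
      rintro ⟨ℓ, hℓ, hℓS⟩
      obtain ⟨hg, hℓp, hN⟩ := hS ℓ hℓ hℓS
      obtain ⟨c, hc, hcm⟩ := hcong ℓ hℓ hg (fun h => hN (h.trans hL)) hℓp
      have hχ : χ (gen ℓ) = c := Subtype.ext <| by
        show Eigen.eigenChar f' hf' ∅ (gen ℓ) = c
        simp only [gen, dif_pos (And.intro hℓ hN)]
        rw [Eigen.eigenChar_T, hff' ℓ hℓ hN, hc]
      show emb (Ideal.Quotient.mk 𝔪 (χ (gen ℓ))) = _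
      rw [hχ, Ideal.Quotient.eq.mpr hcm, map_intCast, map_intCast, CurveResidual.abar,
        map_intCast]
    simp only [hval] at h0
    have h1 := MvPolynomial.eval₂_comp_left (algebraMap d.k kk) (residue d.O)
      (fun ℓ : GoodPrime S => d.abar ℓ.1) P
    exact (map_eq_zero_iff _ (algebraMap d.k kk).injective).mp (h1.trans h0)

private theorem exists_eigenform_of_system_aux {L : ℕ} [NeZero L] {S : Finset ℕ}
    (a : ℕ → d.K) (ha : HasSystem (one_dvd L) (1 : DirichletCharacter d.K 1) S a)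
    (hc : IsCongruent (algebraMap d.O d.K) (residue d.O) d.abar S a) :
    ∃ (f : CuspForm (Gamma0 (L * 1)) 2) (𝔪 : Ideal (integralClosure ℤ ℂ)),
      f.IsNormalizedEigenform ∧ 𝔪.IsMaximal ∧ (p : integralClosure ℤ ℂ) ∈ 𝔪 ∧
      ∀ ℓ : ℕ, ℓ.Prime → ℓ ∉ S → ¬ ℓ ∣ L * 1 →
        ∃ c : integralClosure ℤ ℂ, (c : ℂ) = qCoeff f ℓ ∧
          c - ((W.apOfModel ℓ : ℤ) : integralClosure ℤ ℂ) ∈ 𝔪 := by
  classical
  haveI : NeZero (L * 1) := ⟨by simpa using NeZero.ne L⟩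
  haveI : CharZero d.K := charZero_of_injective_algebraMap
    (algebraMap_K_injective d)
  haveI := d.charP_k
  have hEis : ∃ ℓ : ℕ, ℓ.Prime ∧ ℓ ∉ S ∧ (ℓ : ZMod (L * 1)) = 1 ∧ a ℓ ≠ (ℓ : d.K) + 1 := by
    obtain ⟨ℓ, hℓ, hℓS, h1, hp1, -, hne⟩ :=
      d.hne2 (L * 1) S (Nat.pos_of_ne_zero (NeZero.ne _))
    refine ⟨ℓ, hℓ, hℓS, h1, fun h => hne ?_⟩
    let P : HeckePoly d.O S :=
      MvPolynomial.X ⟨ℓ, hℓ, hℓS⟩ - MvPolynomial.C ((ℓ : d.O) + 1)
    have hP : P ∈ RingHom.ker (evalSystem (algebraMap d.O d.K) a S) := by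
      simp [P, RingHom.mem_ker, evalSystem, h]
    have h2 := hc hP
    simp only [P, residualIdeal, RingHom.mem_ker, evalSystem, map_sub,
      MvPolynomial.eval₂Hom_X', MvPolynomial.eval₂Hom_C, map_add, map_natCast, map_one,
      sub_eq_zero] at h2
    have h3 : (ℓ : d.k) = 1 := by
      have := congrArg (ZMod.castHom dvd_rfl d.k) hp1
      rwa [map_natCast, map_one] at this
    rw [h3, CurveResidual.abar] at h2
    have h4 : ((W.apOfModel ℓ - 2 : ℤ) : d.k) = 0 := by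
      rw [Int.cast_sub, Int.cast_ofNat, sub_eq_zero, h2]; norm_num
    have h5 := (ZMod.intCast_zmod_eq_zero_iff_dvd _ p).mpr
      ((CharP.intCast_eq_zero_iff d.k p _).mp h4)
    rwa [Int.cast_sub, Int.cast_ofNat, sub_eq_zero] at h5
  obtain ⟨χ, hχT, hχU⟩ := exists_hom_of_hasSystem (one_dvd L) squarefree_one
    (Nat.coprime_one_left _) (1 : DirichletCharacter d.K 1)
    (fun q hq h => absurd (Nat.dvd_one.mp h) hq.ne_one) S
    (fun q hq h => absurd (Nat.dvd_one.mp h) hq.ne_one) a ha hEis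
  let x : GoodPrime S → (CuspForm.heckeAlgebra (L * 1) 2 (↑S : Set ℕ)) := fun ℓ =>
    if hN : ℓ.1 ∣ L * 1 then CuspForm.heckeAlgebra.U ℓ.2.1 hN (fun h => ℓ.2.2 h)
    else CuspForm.heckeAlgebra.T ℓ.2.1 hN (fun h => ℓ.2.2 h)
  let φ : HeckePoly ℤ S →+* (CuspForm.heckeAlgebra (L * 1) 2 (↑S : Set ℕ)) := MvPolynomial.eval₂Hom (Int.castRingHom (CuspForm.heckeAlgebra (L * 1) 2 (↑S : Set ℕ))) x
  have hsurj : Function.Surjective φ := by
    rintro ⟨t, ht⟩
    induction ht using Algebra.adjoin_induction with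
    | mem t ht =>
      rcases ht with ⟨ℓ, hℓ, hℓN, hℓS, rfl⟩ | ⟨q, hqN, hq, hqS, rfl⟩
      · exact ⟨MvPolynomial.X ⟨ℓ, hℓ, hℓS⟩, by simp only [φ, x, MvPolynomial.eval₂Hom_X', dif_neg hℓN]; rfl⟩
      · exact ⟨MvPolynomial.X ⟨q, hq, hqS⟩, by simp only [φ, x, MvPolynomial.eval₂Hom_X', dif_pos hqN]; rfl⟩
    | algebraMap n => exact ⟨MvPolynomial.C n, by simp [φ]; rfl⟩
    | add t s _ _ iht ihs =>
      obtain ⟨P, hP⟩ := iht; obtain ⟨Q, hQ⟩ := ihs
      exact ⟨P + Q, by rw [map_add, hP, hQ]; rfl⟩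
    | mul t s _ _ iht ihs =>
      obtain ⟨P, hP⟩ := iht; obtain ⟨Q, hQ⟩ := ihs
      exact ⟨P * Q, by rw [map_mul, hP, hQ]; rfl⟩
  have hχx : ∀ ℓ : GoodPrime S, χ (x ℓ) = a ℓ.1 := fun ℓ => by
    by_cases hN : ℓ.1 ∣ L * 1
    · simp only [x, dif_pos hN]; exact hχU _ _ _ _
    · simp only [x, dif_neg hN]; exact hχT _ _ _ _
  let κ : HeckePoly ℤ S →+* d.k :=
    (evalSystem (residue d.O) d.abar S).comp (MvPolynomial.map (Int.castRingHom d.O))
  have hκ : RingHom.ker φ ≤ RingHom.ker κ := fun P hP => by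
    have e : (evalSystem (algebraMap d.O d.K) a S).comp
        (MvPolynomial.map (Int.castRingHom d.O)) = χ.comp φ :=
      MvPolynomial.ringHom_ext (fun n => by simp [evalSystem, φ]) fun ℓ => by
        simp [evalSystem, φ, hχx]
    refine hc (RingHom.mem_ker.mpr ((RingHom.congr_fun e P).trans ?_))
    rw [RingHom.comp_apply, RingHom.mem_ker.mp hP, map_zero]
  let ψ : (CuspForm.heckeAlgebra (L * 1) 2 (↑S : Set ℕ)) →+* d.k := RingHom.liftOfSurjective φ hsurj ⟨κ, hκ⟩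
  have hψ : ∀ P, ψ (φ P) = κ P := RingHom.liftOfRightInverse_comp_apply _ _ _ _
  have H := Integral.hasIntegralStructure (L * 1) 2
  haveI := Eigen.heckeAlgebra_moduleFinite H (↑S : Set ℕ)
  haveI : Finite ((CuspForm.heckeAlgebra (L * 1) 2 (↑S : Set ℕ)) ⧸ RingHom.ker ψ) :=
    Finite.of_injective _ (RingHom.kerLift_injective ψ)
  haveI : (RingHom.ker ψ).IsMaximal :=
    haveI := RingHom.ker_isPrime ψ
    Ideal.Quotient.maximal_of_isField _ (Finite.isField_of_domain _)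
  obtain ⟨χ', 𝔪, h𝔪, hcomap⟩ := Eigen.exists_char_lift_maximal (RingHom.ker ψ)
  obtain ⟨f, hf, hfT, -⟩ := Eigen.exists_eigenform_qCoeff_of_ringHom H
    ((integralClosure ℤ ℂ).val.toRingHom.comp χ')
  have hmem : ∀ t, ψ t = 0 → χ' t ∈ 𝔪 := fun t ht => by
    have h : t ∈ 𝔪.comap χ' := by rw [hcomap]; exact ht
    exact h
  refine ⟨f, 𝔪, hf, h𝔪, ?_, fun ℓ hℓ hℓS hN => ?_⟩
  · have h := hmem (p : (CuspForm.heckeAlgebra (L * 1) 2 (↑S : Set ℕ))) (by rw [map_natCast]; exact d.natCast_prime_eq_zero)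
    rwa [map_natCast] at h
  · refine ⟨χ' (CuspForm.heckeAlgebra.T hℓ hN (fun h => hℓS h)),
      (hfT ℓ hℓ hN (fun h => hℓS h)).symm, ?_⟩
    have h := hmem (CuspForm.heckeAlgebra.T hℓ hN (fun h => hℓS h) - (W.apOfModel ℓ : (CuspForm.heckeAlgebra (L * 1) 2 (↑S : Set ℕ)))) <| by
      have e : φ (MvPolynomial.X ⟨ℓ, hℓ, hℓS⟩) = CuspForm.heckeAlgebra.T hℓ hN (fun h => hℓS h) :=
        by simp only [φ, x, MvPolynomial.eval₂Hom_X', dif_neg hN]
      rw [map_sub, map_intCast, ← e, hψ]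
      simp [κ, evalSystem, CurveResidual.abar]
    rwa [map_sub, map_intCast] at h

/-- A congruent system gives an eigenform of the same level congruent to the curve at almost all
primes. -/
theorem exists_eigenform_of_system {L : ℕ} [NeZero L] {S : Finset ℕ} (a : ℕ → d.K)
    (ha : HasSystem (one_dvd L) (1 : DirichletCharacter d.K 1) S a)
    (hc : IsCongruent (algebraMap d.O d.K) (residue d.O) d.abar S a) :
    ∃ (f : CuspForm (Gamma0 L) 2) (𝔪 : Ideal (integralClosure ℤ ℂ)),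
      f.IsNormalizedEigenform ∧ 𝔪.IsMaximal ∧ (p : integralClosure ℤ ℂ) ∈ 𝔪 ∧
      ∀ ℓ : ℕ, ℓ.Prime → ℓ ∉ S → ¬ ℓ ∣ L →
        ∃ c : integralClosure ℤ ℂ, (c : ℂ) = qCoeff f ℓ ∧
          c - ((W.apOfModel ℓ : ℤ) : integralClosure ℤ ℂ) ∈ 𝔪 := by
  have h := exists_eigenform_of_system_aux d a ha hc
  rwa [mul_one] at h

/-- A congruent system at level `L` makes the curve residually modular of level `L`. -/
theorem isResiduallyModularOfLevel_of_system (hirr : W.ModRepIsIrreducible p) {L : ℕ} [NeZero L]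
    {S : Finset ℕ} (a : ℕ → d.K)
    (ha : HasSystem (one_dvd L) (1 : DirichletCharacter d.K 1) S a)
    (hc : IsCongruent (algebraMap d.O d.K) (residue d.O) d.abar S a) :
    W.IsResiduallyModularOfLevel p L := by
  obtain ⟨f, 𝔪, hf, h𝔪, hp, hcong⟩ := exists_eigenform_of_system d a ha hc
  exact isResiduallyModularOfLevel_of_eigenform d.hΔ d.hp2 hirr hf 𝔪 h𝔪 hp S
    fun ℓ hℓ hℓS _ hN _ => hcong ℓ hℓ hℓS hN

end Fermat.Agent.Ribet.General
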