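/-
Level lowering away from `p` for semistable curves, assembled from Mazur's principle and Ihara
avoidance.
-/
import Fermat.Agent.Ribet.GlueMain
import Fermat.Agent.Ribet.MPExport
import Fermat.Agent.Ribet.General.Systems
import Fermat.Agent.Ribet.General.RemoveAux
import Fermat.Agent.Newform.Extension
import Fermat.Agent.Mult.Main
import Fermat.Agent.ECRed.Good
import Fermat.Agent.EC.Torsion

set_option autoImplicit false
set_option linter.style.haveILetI false

noncomputable section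

namespace Fermat.Agent.Ribet.General

open WeierstrassCurve Avoid
open scoped WeierstrassCurve.Affine

local notation "ℚbar" => AlgebraicClosure ℚ
local notation "Γℚ" => AlgebraicClosure ℚ ≃ₐ[ℚ] AlgebraicClosure ℚ

variable {W : WeierstrassCurve ℤ} {p : ℕ} [Fact p.Prime]

/-- Both directions of the bridge hold for every choice of coefficients. -/
theorem bridge (d : CurveResidual W p) (hirr : W.ModRepIsIrreducible p) : Glue.Bridge d where
  system L _ S hS hLS h := by
    refine exists_system_of_isResiduallyModularOfLevel d dvd_rfl h S fun ℓ hℓ hℓS => ?_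
    refine ⟨fun hd => hℓS (hS ?_), fun he => hℓS (hS ?_), fun hd => hℓS (hLS ℓ hℓ hd)⟩
    · exact Finset.mem_union_right _ (Nat.mem_primeFactors.2
        ⟨hℓ, Int.natCast_dvd.mp hd, Int.natAbs_ne_zero.mpr d.hΔ⟩)
    · exact Finset.mem_union_left _ (Finset.mem_singleton.2 he)
  modular L _ _ a _ ha hc := isResiduallyModularOfLevel_of_system d hirr a ha hc

/-- Inertia at `q ≠ p` fixes `W[p]` outside the primes of ramification. -/
theorem smul_eq_self_of_not_dvd_residualLevel (hΔ : W.Δ ≠ 0) (hss : W.IsSemistableModel) {q : ℕ}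
    (hq : q.Prime) (hqp : q ≠ p) (hv : ¬ q ∣ residualLevel W p)
    {A : ValuationSubring ℚbar} (hA : A.LiesOverPrime q) {σ : Γℚ}
    (hσ : σ ∈ A.inertiaSubgroupIn ℚ) (x : Lifting.Tors W p) : σ • x = x := by
  have hp : p.Prime := Fact.out
  have hqn : ¬ q ∣ p := fun h => hqp ((Nat.prime_dvd_prime_iff_eq hq hp).mp h)
  by_cases hbad : (q : ℤ) ∣ W.Δ
  · exact Mult.inertia_smul_eq_self_of_dvd
      (Mult.IsMultPlace.of_semistable hΔ hss hq hbad hA) hp.ne_zero hqn
      (by by_contra h; exact hv ((prime_dvd_residualLevel_iff hΔ hq).mpr ⟨hqp, hbad, h⟩)) hσ x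
  · exact ECRed.galoisRepUnramifiedAt_of_isGoodPrimeFor W hq hbad hqn A hA σ hσ x

/-- Mazur's principle supplies the scalar primes along the divisors of a squarefree level. -/
theorem mazurStep (d : CurveResidual W p) (hss : W.IsSemistableModel)
    (hirr : W.ModRepIsIrreducible p) (Aux : Finset ℕ)
    (hthree : p = 3 → ∃ x : ℕ, x % 3 = 2 ∧ x.Prime ∧ (x ∣ residualLevel W p ∨ x ∈ Aux))
    {N : ℕ} (hN : Squarefree N) : Glue.MazurStep d (∏ x ∈ Aux, x) N := by
  intro M l hMl hAM hl hlM hlp hlr hR hres hno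
  have hp : p.Prime := Fact.out
  haveI := Lifting.isElliptic_tors (W := W) d.hΔ
  have hcard : Nat.card (Submodule.torsionBy ℤ
      ((W.map (Int.castRingHom ℚ))⁄(AlgebraicClosure ℚ)).Point p) = p ^ 2 :=
    EC.card_torsionBy_Qbar hp.ne_zero
  have hker := EC.galoisFactorsThroughFiniteLevel (W.map (Int.castRingHom ℚ)).toAffine hp.ne_zero
  have hthree' : p = 3 → ∃ r, r.Prime ∧ r ∣ M * l / l ∧ r % 3 = 2 := fun h3 => by
    obtain ⟨x, hx2, hxp, hx⟩ := hthree h3
    refine ⟨x, hxp, ?_, hx2⟩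
    rw [Nat.mul_div_cancel _ hl.pos]
    rcases hx with h | h
    · exact hR x hxp h
    · exact (Finset.dvd_prod_of_mem (fun y => y) h).trans hAM
  rcases MP.isResiduallyModularOfLevel_div_or_scalar d.hΔ d.hp2 hirr (hN.squarefree_of_dvd hMl) hl
    hlp (dvd_mul_left l M) hthree' hcard hker
    (fun A hA σ hσ => LinearMap.ext fun x =>
      smul_eq_self_of_not_dvd_residualLevel d.hΔ hss hl hlp hlr hA hσ x) hres with
    h | ⟨h1, ε, -, hε⟩
  · exact absurd (by rwa [Nat.mul_div_cancel _ hl.pos] at h) hno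
  · refine d.isScalarPrime_of_curve hl hlp h1 (fun hd => ?_) fun A hA => ?_
    · by_contra h
      exact hlr ((prime_dvd_residualLevel_iff d.hΔ hl).mpr ⟨hlp, hd, h⟩)
    · obtain ⟨φ, hφ⟩ := Galois.exists_isFrobeniusAt hl hA
      exact ⟨φ, hφ, ε, hε A hA φ hφ⟩

/-- Auxiliary primes with product `A` can be removed from a residually modular level. -/
theorem isResiduallyModularOfLevel_of_mul_prod (d : CurveResidual W p)
    (hirr : W.ModRepIsIrreducible p) :
    ∀ (T : Finset ℕ), (∀ r ∈ T, d.IsAuxPrime r) → ∀ c : ℕ, c ≠ 0 → (∀ r ∈ T, ¬ r ∣ c) →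
      W.IsResiduallyModularOfLevel p (c * ∏ x ∈ T, x) → W.IsResiduallyModularOfLevel p c := by
  classical
  intro T
  induction T using Finset.induction with
  | empty => intro _ c _ _ h; simpa using h
  | @insert x T hxT ih =>
    intro hT c hc0 hc h
    have hT' : ∀ r ∈ T, d.IsAuxPrime r := fun r hr => hT r (Finset.mem_insert_of_mem hr)
    have hx := hT x (Finset.mem_insert_self x T)
    refine ih hT' c hc0 (fun r hr => hc r (Finset.mem_insert_of_mem hr)) ?_
    rw [Finset.prod_insert hxT, mul_left_comm, mul_comm] at h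
    haveI : NeZero (c * ∏ y ∈ T, y) :=
      ⟨mul_ne_zero hc0 (Finset.prod_ne_zero_iff.mpr fun r hr => (hT' r hr).prime.ne_zero)⟩
    refine isResiduallyModularOfLevel_of_mul_aux d.hΔ d.hp2 hirr hx.prime hx.ne ?_ hx.good ?_ h
    · intro hd
      rcases hx.prime.dvd_mul.mp hd with h' | h'
      · exact hc x (Finset.mem_insert_self x T) h'
      · obtain ⟨y, hy, hxy⟩ := (hx.prime.prime.dvd_finsetProd_iff _).mp h'
        exact hxT (((Nat.prime_dvd_prime_iff_eq hx.prime (hT' y hy).prime).mp hxy) ▸ hy)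
    · intro hd
      haveI := d.charP_k
      apply hx.abar_sq_ne
      have h0 := (CharP.intCast_eq_zero_iff d.k p _).mpr hd
      rw [← sub_eq_zero]
      simpa [CurveResidual.abar] using h0

/-- **Minimal levels.** A residually modular squarefree level, not containing a good `p`, has a
residually modular divisor whose primes other than `p` are primes of ramification. -/
theorem exists_dvd_residualLevel (hΔ : W.Δ ≠ 0) (hss : W.IsSemistableModel) (hp2 : p ≠ 2)
    (hirr : W.ModRepIsIrreducible p) {M : ℕ} (hM : Squarefree M)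
    (hpM : p ∣ M → (p : ℤ) ∣ W.Δ) (hres : W.IsResiduallyModularOfLevel p M) :
    ∃ M' : ℕ, M' ∣ M ∧ W.IsResiduallyModularOfLevel p M' ∧
      ∀ q : ℕ, q.Prime → q ∣ M' → q ≠ p → q ∣ residualLevel W p := by
  classical
  obtain ⟨d⟩ := nonempty_curveResidual hΔ hss hp2 hirr
  obtain ⟨Aux, hAux, hdisj, hthree⟩ := d.exists_aux hss hirr M.primeFactors
  set A := ∏ x ∈ Aux, x with hA
  have hAprime : ∀ x : ℕ, x.Prime → x ∣ A → x ∈ Aux := fun x hx h => by
    obtain ⟨y, hy, hxy⟩ := (hx.prime.dvd_finsetProd_iff _).mp h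
    exact (Nat.prime_dvd_prime_iff_eq hx (hAux y hy).prime).mp hxy ▸ hy
  have hrM : ∀ r ∈ Aux, ¬ r ∣ M := fun r hr h => Finset.disjoint_right.mp hdisj hr
    (Nat.mem_primeFactors.mpr ⟨(hAux r hr).prime, h, hM.ne_zero⟩)
  have hAsq : Squarefree A := Finset.squarefree_prod_of_pairwise_isCoprime
    (fun a ha b hb hab => Nat.coprime_iff_isRelPrime.mp
      ((Nat.coprime_primes (hAux a ha).prime (hAux b hb).prime).mpr hab))
    fun a ha => (hAux a ha).prime.squarefree
  have hMA : Nat.Coprime M A := Nat.Coprime.prod_right fun a ha =>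
    ((hAux a ha).prime.coprime_iff_not_dvd.mpr (hrM a ha)).symm
  have hMAsq : Squarefree (M * A) := (Nat.squarefree_mul hMA).mpr ⟨hM, hAsq⟩
  haveI : NeZero M := ⟨hM.ne_zero⟩
  haveI : NeZero (M * A) := ⟨hMAsq.ne_zero⟩
  have hpA : p ∣ M * A → (p : ℤ) ∣ W.Δ := fun h => hpM
    (((Fact.out : p.Prime).dvd_mul.mp h).resolve_right fun h' =>
      (hAux p (hAprime p Fact.out h')).ne rfl)
  obtain ⟨L, hLd, hAL, hLres, hLmin⟩ := Glue.exists_dvd_minimal d (bridge d hirr) hirr Aux hAux
    hthree hMAsq (fun r hr => dvd_mul_of_dvd_right (Finset.dvd_prod_of_mem _ hr) _) hpA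
    (mazurStep d hss hirr Aux hthree hMAsq)
    (Newform.isResiduallyModularOfLevel_of_dvd (dvd_mul_right M A) hres)
  obtain ⟨c, rfl⟩ : A ∣ L := Finset.prod_primes_dvd L (fun r hr => (hAux r hr).prime.prime) hAL
  have hcM : c ∣ M := by
    refine Nat.dvd_of_mul_dvd_mul_left (Nat.pos_of_ne_zero hAsq.ne_zero) ?_
    rwa [mul_comm A M]
  refine ⟨c, hcM, isResiduallyModularOfLevel_of_mul_prod d hirr Aux hAux c
    (fun h => hM.ne_zero (Nat.eq_zero_of_zero_dvd (h ▸ hcM)))
    (fun r hr h => hrM r hr (h.trans hcM)) (by rwa [mul_comm]), fun q hq hqc hqp => ?_⟩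
  exact hLmin q hq (dvd_mul_of_dvd_right hqc A) hqp fun hqA => hrM q hqA (hqc.trans hcM)

/-- A residually modular squarefree level not containing a good `p` lowers to one prime to any
prime `q ≠ p` outside the primes of ramification. -/
theorem exists_dvd_not_dvd (hΔ : W.Δ ≠ 0) (hss : W.IsSemistableModel) (hp2 : p ≠ 2)
    (hirr : W.ModRepIsIrreducible p) {M : ℕ} (hM : Squarefree M)
    (hpM : p ∣ M → (p : ℤ) ∣ W.Δ) (hres : W.IsResiduallyModularOfLevel p M) {q : ℕ}
    (hq : q.Prime) (hqp : q ≠ p) (hqr : ¬ q ∣ residualLevel W p) :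
    ∃ M' : ℕ, M' ∣ M ∧ ¬ q ∣ M' ∧ W.IsResiduallyModularOfLevel p M' := by
  obtain ⟨M', hd, hmod, hr⟩ := exists_dvd_residualLevel hΔ hss hp2 hirr hM hpM hres
  exact ⟨M', hd, fun h => hqr (hr q hq h hqp), hmod⟩

/-- **Level lowering away from `p`** in the shape of the frozen statement, for levels which do
not contain a good `p`. -/
theorem isResiduallyModularOfLevel_div (hp2 : p ≠ 2) (hΔ : W.Δ ≠ 0) (hW : W.IsSemistableModel)
    (hcard₁ : Nat.card (Submodule.torsionBy ℤ
      ((W.map (Int.castRingHom ℚ))⁄(AlgebraicClosure ℚ)).Point p) = p ^ 2)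
    (hker : GaloisFactorsThroughFiniteLevel
      (WeierstrassCurve.Affine.Point.galoisRepModuleEnd (K := AlgebraicClosure ℚ) ℚ
        (W.map (Int.castRingHom ℚ)) p))
    (hirr : W.ModRepIsIrreducible p) {M q : ℕ} (hq : q.Prime) (hqp : q ≠ p)
    (hqM : q ∣ M) (hM : Squarefree M) (hpM : ¬ (p : ℤ) ∣ W.Δ → ¬ p ∣ M)
    (hunr : ((W.map (Int.castRingHom ℚ)).residualGaloisRepOf p hcard₁ hker).IsUnramifiedAt q)
    (hres : W.IsResiduallyModularOfLevel p M) :
    W.IsResiduallyModularOfLevel p (M / q) := by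
  obtain ⟨d⟩ := nonempty_curveResidual hΔ hW hp2 hirr
  have hqr : ¬ q ∣ residualLevel W p := fun h => by
    obtain ⟨hqp', hd, hv⟩ := (prime_dvd_residualLevel_iff hΔ hq).mp h
    exact (d.hram q hq hqp').mp ⟨hd, hv⟩ (Glue.isUnramifiedAt_of_torsRep d hunr)
  obtain ⟨M', hd, hqM', hmod⟩ := exists_dvd_not_dvd hΔ hW hp2 hirr hM
    (fun h => by by_contra h'; exact hpM h' h) hres hq hqp hqr
  obtain ⟨c, rfl⟩ := hqM
  rw [Nat.mul_div_cancel_left _ hq.pos]
  have hc0 : c ≠ 0 := fun h => hM.ne_zero (by rw [h, mul_zero])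
  haveI : NeZero c := ⟨hc0⟩
  exact Newform.isResiduallyModularOfLevel_of_dvd
    (((hq.coprime_iff_not_dvd.mpr hqM').symm).dvd_of_dvd_mul_left hd) hmod

end Fermat.Agent.Ribet.General

end
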