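/-
Level lowering away from `p` for Frey packages.
-/
import Fermat.Agent.Ribet.General.Lower
import Fermat.Agent.Wiring.FreyBridge
import Fermat.Agent.Mult.Frey

set_option autoImplicit false
set_option linter.style.haveILetI false

noncomputable section

open WeierstrassCurve.Affine.Point

namespace Fermat.Agent.Ribet.General

open Fermat.Agent.Wiring

/-- `p` divides the discriminant of the integral model as soon as it divides `a b c`. -/
theorem freyPrime_dvd_Δ (P : FreyPackage) (h : (P.p : ℤ) ∣ P.a * P.b * P.c) :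
    (P.p : ℤ) ∣ P.freyCurveInt.Δ := by
  have hp' : Prime (P.p : ℤ) := Nat.prime_iff_prime_int.1 P.pp
  have h256 : (P.p : ℤ) ∣ 256 * P.freyCurveInt.Δ := by
    rw [freyCurveInt_Δ P]
    exact dvd_pow h (by have := P.hp5; omega)
  refine (hp'.dvd_or_dvd h256).resolve_left fun h2 => ?_
  have h2' : (P.p : ℤ) ∣ 2 := hp'.dvd_of_dvd_pow (show (P.p : ℤ) ∣ 2 ^ 8 by norm_num; exact h2)
  have := Int.le_of_dvd (by norm_num) h2'
  have := P.hp5
  omega

/-- **Removal of an odd prime `q ≠ p` from the level of the Frey representation.** -/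
theorem lowerAwayP (P : FreyPackage) {N q : ℕ} (hN : P.IsConductorLevel N) (hq : q.Prime)
    (hq2 : q ≠ 2) (hqp : q ≠ P.p)
    (hirr : GaloisRepIsIrreducible (K := AlgebraicClosure ℚ) ℚ P.freyCurve P.p)
    (hmod : P.ModularRepOfLevel N) :
    ∃ M : ℕ, M ∣ N ∧ ¬ q ∣ M ∧ P.ModularRepOfLevel M := by
  haveI : Fact P.p.Prime := ⟨P.pp⟩
  have hp2 : P.p ≠ 2 := by have := P.hp5; omega
  obtain ⟨M, hMN, hqM, hM⟩ := exists_dvd_not_dvd (p := P.p) (freyCurveInt_Δ_ne_zero P)
    (freyCurveInt_isSemistableModel P) hp2 (modRepIsIrreducible_freyCurveInt P hirr)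
    hN.squarefree (fun h => freyPrime_dvd_Δ P (hN.p_dvd_abc h))
    (freyCurveInt_isResiduallyModularOfLevel P hirr hN.pos hmod) hq hqp
    (fun h => ((Avoid.prime_dvd_residualLevel_iff (freyCurveInt_Δ_ne_zero P) hq).mp h).2.2
      (Mult.dvd_padicValInt_freyCurveInt_Δ P hq hq2))
  exact ⟨M, hMN, hqM, modularRepOfLevel_of_freyCurveInt P hM⟩

end Fermat.Agent.Ribet.General

end
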